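import Fermat.Agent.AVH.Main
import Fermat.Agent.AVn.Red

/-!
# The diagonal places as valuation rings with residue field (`RDk`)

Setting of S26, block D: `k`, `E`, `M` with `[BC k E (Cp E) M]`.
-/

set_option autoImplicit false
set_option linter.unusedSectionVars false

noncomputable section

universe u

open scoped TensorProduct IntermediateField

namespace Fermat.Agent.AVH

open Fermat.Agent.AVn Fermat.Agent.AVG Fermat.Agent.BaseChangeFF

section

variable (k E M : Type u) [Field k] [Field E] [Algebra k E] [Field M] [Algebra k M] [Algebra E M]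
  [Algebra (Cp E) M] [IsScalarTower k E M] [IsScalarTower k (Cp E) M]

/-- first copy -/
def i1 : E →ₐ[k] M := IsScalarTower.toAlgHom k E M

/-- second copy -/
def i2 : E →ₐ[k] M := (IsScalarTower.toAlgHom k (Cp E) M).comp (Cp.equiv k E).toAlgHom

@[simp] theorem i1_apply (x : E) : i1 k E M x = algebraMap E M x := rfl
theorem i2_apply (x : E) : i2 k E M x = algebraMap (Cp E) M (x : Cp E) := rfl

/-- the product map as an `E`-linear map -/
def pm : E ⊗[k] E →ₐ[E] M := Algebra.TensorProduct.lift (Algebra.ofId E M) (i2 k E M)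
  (fun _ _ => Commute.all _ _)

theorem pm_eq (z : E ⊗[k] E) :
    pm k E M z = Algebra.TensorProduct.productMap (i1 k E M) (i2 k E M) z := by
  induction z using TensorProduct.induction_on with
  | zero => rw [map_zero, map_zero]
  | add a b ha hb => rw [map_add, map_add, ha, hb]
  | tmul a b =>
    rw [Algebra.TensorProduct.productMap_apply_tmul, pm, Algebra.TensorProduct.lift_tmul]
    rfl

theorem pm_one_tmul (y : E) : pm k E M ((1 : E) ⊗ₜ[k] y) = algebraMap (Cp E) M (y : Cp E) := by
  rw [pm, Algebra.TensorProduct.lift_tmul, map_one, one_mul]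
  rfl

variable [hBC : BC k E (Cp E) M]

theorem pm_injective : Function.Injective (pm k E M) := by
  rw [injective_iff_map_eq_zero]
  intro z hz
  let b := Module.Basis.ofVectorSpace k E
  let b' := Algebra.TensorProduct.basis E b
  have hlin : LinearIndependent E (fun i => pm k E M (b' i)) := by
    have h1 : LinearIndependent k (fun i => ((b i : E) : Cp E)) := b.linearIndependent
    have h2 := hBC.linearIndependent h1
    convert h2 using 1
    funext i
    rw [Algebra.TensorProduct.basis_apply, pm, Algebra.TensorProduct.lift_tmul, map_one, one_mul]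
    rfl
  have h3 : Finsupp.linearCombination E (fun i => pm k E M (b' i)) (b'.repr z) = 0 := by
    rw [← hz]
    conv_rhs => rw [← b'.linearCombination_repr z]
    rw [Finsupp.linearCombination_apply, Finsupp.linearCombination_apply, Finsupp.sum,
      Finsupp.sum, map_sum]
    exact Finset.sum_congr rfl fun i _ => by rw [map_smul]
  have h4 := (linearIndependent_iff.mp hlin) _ h3
  rw [← b'.linearCombination_repr z, h4, map_zero]

theorem mem_range_pm {a : M} (ha : a ∈ Submodule.span E (Set.range (algebraMap (Cp E) M))) :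
    ∃ z, pm k E M z = a := by
  induction ha using Submodule.span_induction with
  | mem x hx =>
    obtain ⟨y, rfl⟩ := hx
    exact ⟨_, pm_one_tmul k E M y⟩
  | zero => exact ⟨0, map_zero _⟩
  | add x y _ _ hx hy =>
    obtain ⟨z, rfl⟩ := hx
    obtain ⟨w, rfl⟩ := hy
    exact ⟨z + w, map_add _ _ _⟩
  | smul c x _ hx =>
    obtain ⟨z, rfl⟩ := hx
    exact ⟨c • z, map_smul _ _ _⟩

/-- `M` as field of fractions of `E ⊗[k] E` -/
def comp : Comp k E M where
  i₁ := i1 k E M
  i₂ := i2 k E M
  inj := by
    have h : ⇑(Algebra.TensorProduct.productMap (i1 k E M) (i2 k E M)) = ⇑(pm k E M) :=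
      funext fun z => (pm_eq k E M z).symm
    rw [h]
    exact pm_injective k E M
  gen m := by
    obtain ⟨a, b, ha, hb, hb0, hab⟩ := hBC.gen m
    obtain ⟨z, rfl⟩ := mem_range_pm k E M ha
    obtain ⟨w, rfl⟩ := mem_range_pm k E M hb
    refine ⟨z, w, ?_, ?_⟩
    · rintro rfl
      exact hb0 (map_zero _)
    · rw [← pm_eq, ← pm_eq]
      exact hab

end

section

variable {K k E M : Type u} [Field K] [Field k] [Field E] [Algebra K k] [Algebra k E]
  [Algebra K E] [IsScalarTower K k E] [Field M] [Algebra k M] [Algebra E M]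
  [Algebra (Cp E) M] [IsScalarTower k E M] [IsScalarTower k (Cp E) M] [Algebra K M]
  [IsScalarTower K k M] [hBC : BC k E (Cp E) M]
  {u : E} (hu : Transcendental k u) [FiniteDimensional k⟮u⟯ E] [IsGalois k⟮u⟯ E]
  (s : E ≃ₐ[k⟮u⟯] E)

include hu in
omit [FiniteDimensional k⟮u⟯ E] [IsGalois k⟮u⟯ E] in
theorem ne_of_transcendental (c : k) : algebraMap k E c ≠ u := by
  rintro rfl
  exact hu (isAlgebraic_algebraMap c)

variable (K M) in
/-- the diagonal place `s` of `M`, with residue field `E` (first copy ↦ identity,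
second copy ↦ `s`) -/
def rz : RDk K M E where
  A := (comp k E M).V (ne_of_transcendental hu) s
  π := (comp k E M).res (ne_of_transcendental hu) s
  mem c := by
    rw [IsScalarTower.algebraMap_apply K k M]
    exact (comp k E M).mem_alg _ s _
  π_alg c := by
    rw [IsScalarTower.algebraMap_apply K k E, ← (comp k E M).res_alg (ne_of_transcendental hu) s]
    congr 1
    apply Subtype.ext
    exact IsScalarTower.algebraMap_apply K k M c
  surj := (comp k E M).res_surj _ s
  ker := (comp k E M).res_ker _ s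

theorem rz_mem₁ (x : E) : algebraMap E M x ∈ (rz K M hu s).A := (comp k E M).mem₁ _ s x

theorem rz_π₁ (x : E) : (rz K M hu s).π ⟨algebraMap E M x, rz_mem₁ hu s x⟩ = x :=
  (comp k E M).res₁ _ s x

theorem rz_mem₂ (y : Cp E) : algebraMap (Cp E) M y ∈ (rz K M hu s).A :=
  (comp k E M).mem₂ _ s (y : E)

theorem rz_π₂ (y : Cp E) : (rz K M hu s).π ⟨algebraMap (Cp E) M y, rz_mem₂ hu s y⟩ =
    s (y : E) :=
  (comp k E M).res₂ _ s (y : E)

theorem rz_mem_alg (c : k) : algebraMap k M c ∈ (rz K M hu s).A := (comp k E M).mem_alg _ s c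

theorem rz_π_alg (c : k) : (rz K M hu s).π ⟨algebraMap k M c, rz_mem_alg hu s c⟩ =
    algebraMap k E c :=
  (comp k E M).res_alg _ s c

instance rz_isDVR : IsDiscreteValuationRing (rz K M hu s).A :=
  inferInstanceAs (IsDiscreteValuationRing ((comp k E M).V (ne_of_transcendental hu) s))

variable (M) in
/-- `λ = u₁ - u₂` in `M` -/
def lamM (u : E) : M := algebraMap E M u - algebraMap (Cp E) M (u : Cp E)

theorem lamM_mem : lamM M u ∈ (rz K M hu s).A := (comp k E M).sub_mem _ s

theorem rz_irreducible : Irreducible (⟨lamM M u, lamM_mem hu s⟩ : (rz K M hu s).A) :=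
  (comp k E M).irreducible _ s

theorem rz_maximalIdeal : IsLocalRing.maximalIdeal (rz K M hu s).A =
    Ideal.span {⟨lamM M u, lamM_mem hu s⟩} :=
  (comp k E M).maximalIdeal_eq _ s

variable (K M) in
theorem rz_injective : Function.Injective (fun s => (rz K M hu s).A) :=
  (comp k E M).V_injective (ne_of_transcendental hu)

variable (K) in
/-- **Classification**: the valuation rings of `M` containing both copies of `E` in which
`u₁ - u₂` is not a unit. -/
theorem exists_eq_rz {U : ValuationSubring M} (h₁ : ∀ x : E, algebraMap E M x ∈ U)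
    (h₂ : ∀ y : Cp E, algebraMap (Cp E) M y ∈ U)
    (hlam : (lamM M u)⁻¹ ∉ U) : ∃ s, U = (rz K M hu s).A := by
  refine (comp k E M).exists_eq_V (ne_of_transcendental hu) h₁ h₂ ?_
  intro h
  obtain ⟨⟨w, hw⟩, hw'⟩ := h.exists_right_inv
  have h1 : lamM M u * w = 1 := congrArg Subtype.val hw'
  exact hlam ((eq_inv_of_mul_eq_one_right h1) ▸ hw)

end

section Red

variable {K k E M : Type u} [Field K] [Field k] [Field E] [Algebra K k] [Algebra k E]
  [Algebra K E] [IsScalarTower K k E] [Field M] [Algebra k M] [Algebra E M]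
  [Algebra (Cp E) M] [IsScalarTower k E M] [IsScalarTower k (Cp E) M] [Algebra K M]
  [IsScalarTower K k M] [IsScalarTower K E M] [IsScalarTower K (Cp E) M]
  [hBC : BC k E (Cp E) M]
  {u : E} (hu : Transcendental k u) [FiniteDimensional k⟮u⟯ E] [IsGalois k⟮u⟯ E]
  (s : E ≃ₐ[k⟮u⟯] E) {g : ℕ} (A : AVar K g)

theorem red_rz₁ (P : A.Pt E) :
    A.red (rz K M hu s) (A.map (IsScalarTower.toAlgHom K E M) P) = P := by
  have h := A.red_map_field (rz K M hu s) (IsScalarTower.toAlgHom K E M) (AlgHom.id K E)
    (fun x => ⟨rz_mem₁ hu s x, rz_π₁ hu s x⟩) P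
  rw [h, A.map_id]

theorem red_rz₂ (Q : A.Pt E) :
    A.red (rz K M hu s) (A.map (IsScalarTower.toAlgHom K (Cp E) M)
      (A.map ((Cp.equiv K E).toAlgHom) Q)) =
      A.map ((s.toAlgHom.restrictScalars k).restrictScalars K) Q := by
  rw [← A.map_comp]
  exact A.red_map_field (rz K M hu s) ((IsScalarTower.toAlgHom K (Cp E) M).comp
    (Cp.equiv K E).toAlgHom) ((s.toAlgHom.restrictScalars k).restrictScalars K)
    (fun x => ⟨rz_mem₂ hu s x, rz_π₂ hu s x⟩) Q

/-- **Specialization at the diagonal place `s`.** -/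
theorem red_rz (P Q : A.Pt E) :
    A.red (rz K M hu s) (A.map (IsScalarTower.toAlgHom K E M) P +
      A.map (IsScalarTower.toAlgHom K (Cp E) M) (A.map ((Cp.equiv K E).toAlgHom) Q)) =
      P + A.map ((s.toAlgHom.restrictScalars k).restrictScalars K) Q := by
  rw [map_add, red_rz₁, red_rz₂]

end Red

end Fermat.Agent.AVH
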