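import Fermat.Agent.AVH.Val

/-!
# The diagonal places of a compositum of two copies of a Galois extension `E/k(u)`

`M = Frac(E ⊗[k] E)`; for `s ∈ Gal(E/k(u))` there is a discrete valuation ring `V s ⊂ M` with
uniformizer `u₁ - u₂` and residue field `E` (`x₁ ↦ x`, `y₂ ↦ s y`), and these are all the valuation
rings of `M` containing both copies of `E` in which `u₁ - u₂` is not a unit.
-/

set_option autoImplicit false

noncomputable section

open scoped TensorProduct IntermediateField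

namespace Fermat.Agent.AVH

section Lam

variable {k E : Type*} [Field k] [Field E] [Algebra k E]

theorem lam_ne_zero {u : E} (hu : ∀ c : k, algebraMap k E c ≠ u) : lam k u ≠ 0 := by
  intro h
  have h1 : (1 : E) ∉ Submodule.span k {u} := by
    rw [Submodule.mem_span_singleton]
    rintro ⟨a, ha⟩
    have ha0 : a ≠ 0 := by rintro rfl; simp at ha
    apply hu a⁻¹
    have ha' : algebraMap k E a ≠ 0 := by simpa using ha0
    rw [Algebra.smul_def] at ha
    rw [map_inv₀]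
    exact (eq_inv_of_mul_eq_one_right ha).symm
  obtain ⟨f, hf, hker⟩ := Submodule.exists_le_ker_of_notMem h1
  have h2 : f u = 0 := hker (Submodule.mem_span_singleton_self u)
  have h3 := congrArg (TensorProduct.rid k E) (congrArg (LinearMap.lTensor E f) h)
  rw [lam, map_sub, map_sub, LinearMap.lTensor_tmul, LinearMap.lTensor_tmul,
    TensorProduct.rid_tmul, TensorProduct.rid_tmul, h2, zero_smul, sub_zero, map_zero, map_zero,
    smul_eq_zero] at h3
  rcases h3 with h3 | h3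
  · exact hf h3
  · exact hu 0 (by rw [h3, map_zero])

theorem phi_ne {u : E} {s t : E ≃ₐ[k⟮u⟯] E} (hst : s ≠ t) : ∃ z, phi t z = 0 ∧ phi s z ≠ 0 := by
  obtain ⟨x, hx⟩ : ∃ x, s x ≠ t x := by
    by_contra h
    push Not at h
    exact hst (AlgEquiv.ext h)
  refine ⟨(1 : E) ⊗ₜ x - (t x) ⊗ₜ (1 : E), ?_, ?_⟩
  · rw [map_sub, phi_tmul, phi_tmul, map_one, one_mul, mul_one, sub_self]
  · rw [map_sub, phi_tmul, phi_tmul, map_one, one_mul, mul_one]
    exact sub_ne_zero.mpr hx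

theorem exists_e {u : E} [FiniteDimensional k⟮u⟯ E] [IsGalois k⟮u⟯ E] (s : E ≃ₐ[k⟮u⟯] E) :
    ∃ e, phi s e ≠ 0 ∧ ∀ z, phi s z = 0 → lam k u ∣ e * z := by
  classical
  have h1 : ∀ t : E ≃ₐ[k⟮u⟯] E, ∃ z, (t ≠ s → phi t z = 0) ∧ phi s z ≠ 0 := by
    intro t
    by_cases hts : s ≠ t
    · obtain ⟨z, hz, hz'⟩ := phi_ne hts
      exact ⟨z, fun _ => hz, hz'⟩
    · push Not at hts
      exact ⟨1, fun h => absurd hts.symm h, by rw [map_one]; exact one_ne_zero⟩
  choose z hz hz' using h1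
  refine ⟨∏ t, z t, ?_, ?_⟩
  · rw [map_prod]
    exact Finset.prod_ne_zero_iff.mpr fun t _ => hz' t
  · intro w hw
    rw [← Ideal.mem_span_singleton]
    apply mem_span_lam
    intro t
    rw [map_mul, map_prod]
    by_cases hts : t = s
    · subst hts
      rw [hw, mul_zero]
    · rw [Finset.prod_eq_zero (Finset.mem_univ t) (hz t hts), zero_mul]

theorem phi_surj {u : E} (s : E ≃ₐ[k⟮u⟯] E) : Function.Surjective (phi s) := fun x =>
  ⟨x ⊗ₜ 1, by rw [phi_tmul, map_one, mul_one]⟩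

/-- the product of all kernels is in `(λ)`: a prime containing `λ` is one of the kernels -/
theorem exists_of_prime {u : E} [FiniteDimensional k⟮u⟯ E] [IsGalois k⟮u⟯ E]
    (P : Ideal (E ⊗[k] E)) [hP : P.IsPrime] (hlam : lam k u ∈ P) :
    ∃ s : E ≃ₐ[k⟮u⟯] E, ∀ z, phi s z = 0 → z ∈ P := by
  classical
  by_contra hcon
  push Not at hcon
  choose z hz hz' using hcon
  have h1 : ∏ s, z s ∈ P := by
    have h2 : ∏ s, z s ∈ Ideal.span {lam k u} := by
      apply mem_span_lam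
      intro t
      rw [map_prod]
      exact Finset.prod_eq_zero (Finset.mem_univ t) (hz t)
    obtain ⟨c, hc⟩ := Ideal.mem_span_singleton'.mp h2
    rw [← hc]
    exact P.mul_mem_left _ hlam
  rw [Ideal.IsPrime.prod_mem_iff] at h1
  obtain ⟨s, _, hs⟩ := h1
  exact hz' s hs

end Lam

/-- `M` is the field of fractions of `E ⊗[k] E`. -/
structure Comp (k E M : Type*) [Field k] [Field E] [Algebra k E] [Field M] [Algebra k M] where
  /-- first copy -/
  i₁ : E →ₐ[k] M
  /-- second copy -/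
  i₂ : E →ₐ[k] M
  inj : Function.Injective (Algebra.TensorProduct.productMap i₁ i₂)
  gen : ∀ m : M, ∃ z w : E ⊗[k] E, w ≠ 0 ∧
    m * Algebra.TensorProduct.productMap i₁ i₂ w = Algebra.TensorProduct.productMap i₁ i₂ z

namespace Comp

variable {k E M : Type*} [Field k] [Field E] [Algebra k E] [Field M] [Algebra k M]
  (C : Comp k E M) {u : E} (hu : ∀ c : k, algebraMap k E c ≠ u)
  [FiniteDimensional k⟮u⟯ E] [IsGalois k⟮u⟯ E] (s : E ≃ₐ[k⟮u⟯] E)

/-- the local data of the diagonal place `s` -/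
def loc : LocData (E ⊗[k] E) M E where
  μ := (Algebra.TensorProduct.productMap C.i₁ C.i₂).toRingHom
  φ := (phi s).toRingHom
  inj := C.inj
  gen := C.gen
  surj := phi_surj s
  lam := lam k u
  lam_ne := lam_ne_zero hu
  lam_mem := phi_lam s
  prin := exists_e s

variable (u) in
omit [IsGalois k⟮u⟯ E] in
include u in
theorem noeth : IsNoetherianRing (E ⊗[k] E) := by
  have h1 : Algebra.EssFiniteType k k⟮u⟯ :=
    IntermediateField.essFiniteType_iff.mpr ⟨{u}, by simp⟩
  have h2 : Algebra.EssFiniteType k E := Algebra.EssFiniteType.comp k k⟮u⟯ E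
  exact Algebra.EssFiniteType.isNoetherianRing E (E ⊗[k] E)

/-- the diagonal valuation ring -/
def V : ValuationSubring M :=
  haveI := noeth (k := k) u
  (C.loc hu s).V

instance : IsDiscreteValuationRing (C.V hu s) :=
  haveI := noeth (k := k) u
  (C.loc hu s).isDVR

/-- the residue map of the diagonal place -/
def res : C.V hu s →+* E :=
  haveI := noeth (k := k) u
  (C.loc hu s).res

theorem res_surj : Function.Surjective (C.res hu s) :=
  haveI := noeth (k := k) u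
  (C.loc hu s).res_surj

theorem res_ker (x : C.V hu s) : C.res hu s x = 0 ↔ ¬ IsUnit x :=
  haveI := noeth (k := k) u
  (C.loc hu s).res_ker x

theorem mem₁ (x : E) : C.i₁ x ∈ C.V hu s := by
  have := noeth (k := k) u
  have h := (C.loc hu s).mu_mem (x ⊗ₜ 1)
  have h1 : (C.loc hu s).μ (x ⊗ₜ 1) = C.i₁ x := by
    show Algebra.TensorProduct.productMap C.i₁ C.i₂ (x ⊗ₜ 1) = _
    simp
  rwa [h1] at h

theorem mem₂ (y : E) : C.i₂ y ∈ C.V hu s := by
  have := noeth (k := k) u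
  have h := (C.loc hu s).mu_mem (1 ⊗ₜ y)
  have h1 : (C.loc hu s).μ (1 ⊗ₜ y) = C.i₂ y := by
    show Algebra.TensorProduct.productMap C.i₁ C.i₂ (1 ⊗ₜ y) = _
    simp
  rwa [h1] at h

theorem res₁ (x : E) : C.res hu s ⟨C.i₁ x, C.mem₁ hu s x⟩ = x := by
  have := noeth (k := k) u
  have h := (C.loc hu s).res_mu (x ⊗ₜ 1)
  have h1 : (C.loc hu s).μ (x ⊗ₜ 1) = C.i₁ x := by
    show Algebra.TensorProduct.productMap C.i₁ C.i₂ (x ⊗ₜ 1) = _
    simp
  have h2 : (C.loc hu s).φ (x ⊗ₜ 1) = x := by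
    show phi s (x ⊗ₜ 1) = _
    rw [phi_tmul, map_one, mul_one]
  rw [h2] at h
  simp only [h1] at h
  exact h

theorem res₂ (y : E) : C.res hu s ⟨C.i₂ y, C.mem₂ hu s y⟩ = s y := by
  have := noeth (k := k) u
  have h := (C.loc hu s).res_mu (1 ⊗ₜ y)
  have h1 : (C.loc hu s).μ (1 ⊗ₜ y) = C.i₂ y := by
    show Algebra.TensorProduct.productMap C.i₁ C.i₂ (1 ⊗ₜ y) = _
    simp
  have h2 : (C.loc hu s).φ (1 ⊗ₜ y) = s y := by
    show phi s (1 ⊗ₜ y) = _
    rw [phi_tmul, one_mul]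
  rw [h2] at h
  simp only [h1] at h
  exact h

theorem mem_alg (c : k) : algebraMap k M c ∈ C.V hu s := by
  rw [← C.i₁.commutes]
  exact C.mem₁ hu s _

theorem res_alg (c : k) : C.res hu s ⟨algebraMap k M c, C.mem_alg hu s c⟩ = algebraMap k E c := by
  rw [← C.res₁ hu s (algebraMap k E c)]
  congr 1
  apply Subtype.ext
  exact (C.i₁.commutes c).symm

theorem unif_eq : haveI := noeth (k := k) u
    ((C.loc hu s).unif : M) = C.i₁ u - C.i₂ u := by
  show Algebra.TensorProduct.productMap C.i₁ C.i₂ (lam k u) = _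
  rw [lam, map_sub]
  simp

theorem sub_mem : C.i₁ u - C.i₂ u ∈ C.V hu s :=
  _root_.sub_mem (C.mem₁ hu s u) (C.mem₂ hu s u)

theorem irreducible : Irreducible (⟨C.i₁ u - C.i₂ u, C.sub_mem hu s⟩ : C.V hu s) := by
  have := noeth (k := k) u
  have h := (C.loc hu s).irreducible_unif
  have h1 : (C.loc hu s).unif = (⟨C.i₁ u - C.i₂ u, C.sub_mem hu s⟩ : C.V hu s) :=
    Subtype.ext (C.unif_eq hu s)
  rwa [h1] at h

theorem maximalIdeal_eq : IsLocalRing.maximalIdeal (C.V hu s) =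
    Ideal.span {⟨C.i₁ u - C.i₂ u, C.sub_mem hu s⟩} :=
  (C.irreducible hu s).maximalIdeal_eq

theorem V_injective : Function.Injective (C.V hu) := by
  intro s t hst
  by_contra hne
  obtain ⟨x, hx⟩ : ∃ x, s x ≠ t x := by
    by_contra h
    push Not at h
    exact hne (AlgEquiv.ext h)
  have hmem : ∀ r : E ≃ₐ[k⟮u⟯] E, C.i₂ x - C.i₁ (s x) ∈ C.V hu r := fun r =>
    _root_.sub_mem (C.mem₂ hu r x) (C.mem₁ hu r (s x))
  have h1 : ∀ r : E ≃ₐ[k⟮u⟯] E, C.res hu r ⟨_, hmem r⟩ = r x - s x := by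
    intro r
    have h2 : (⟨_, hmem r⟩ : C.V hu r) = ⟨C.i₂ x, C.mem₂ hu r x⟩ -
      ⟨C.i₁ (s x), C.mem₁ hu r (s x)⟩ := rfl
    rw [h2, map_sub, C.res₂, C.res₁]
  have h3 : ¬ IsUnit (⟨_, hmem s⟩ : C.V hu s) := by
    rw [← C.res_ker, h1, sub_self]
  have h4 : IsUnit (⟨_, hmem t⟩ : C.V hu t) := by
    by_contra h
    rw [← C.res_ker, h1] at h
    exact hx (sub_eq_zero.mp h).symm
  apply h3
  obtain ⟨⟨w, hw⟩, hw'⟩ := h4.exists_right_inv
  exact isUnit_iff_exists_inv.mpr ⟨⟨w, hst ▸ hw⟩, Subtype.ext (congrArg Subtype.val hw' :)⟩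

/-- **Classification of the zeros of `u₁ - u₂`.** -/
theorem exists_eq_V {U : ValuationSubring M} (h₁ : ∀ x, C.i₁ x ∈ U) (h₂ : ∀ y, C.i₂ y ∈ U)
    (hlam : ¬ IsUnit (⟨C.i₁ u - C.i₂ u, _root_.sub_mem (h₁ u) (h₂ u)⟩ : U)) :
    ∃ s, U = C.V hu s := by
  have hmem : ∀ z : E ⊗[k] E, Algebra.TensorProduct.productMap C.i₁ C.i₂ z ∈ U := by
    intro z
    induction z using TensorProduct.induction_on with
    | zero => rw [map_zero]; exact U.zero_mem
    | add a b ha hb => rw [map_add]; exact U.add_mem _ _ ha hb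
    | tmul a b =>
      rw [Algebra.TensorProduct.productMap_apply_tmul]
      exact U.mul_mem _ _ (h₁ a) (h₂ b)
  let ψ : E ⊗[k] E →+* U :=
    { toFun := fun z => ⟨_, hmem z⟩
      map_one' := Subtype.ext (map_one _)
      map_mul' := fun a b => Subtype.ext (map_mul _ a b)
      map_zero' := Subtype.ext (map_zero _)
      map_add' := fun a b => Subtype.ext (map_add _ a b) }
  let P : Ideal (E ⊗[k] E) := (IsLocalRing.maximalIdeal U).comap ψ
  have hlP : lam k u ∈ P := by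
    show ψ (lam k u) ∈ IsLocalRing.maximalIdeal U
    rw [IsLocalRing.mem_maximalIdeal]
    have h3 : ψ (lam k u) = ⟨C.i₁ u - C.i₂ u, _root_.sub_mem (h₁ u) (h₂ u)⟩ := by
      apply Subtype.ext
      show Algebra.TensorProduct.productMap C.i₁ C.i₂ (lam k u) = _
      rw [lam, map_sub]
      simp
    rw [h3]
    exact hlam
  obtain ⟨s, hs⟩ := exists_of_prime P hlP
  have := noeth (k := k) u
  refine ⟨s, (C.loc hu s).eq_V hmem fun r hr => ?_⟩
  exact (IsLocalRing.mem_maximalIdeal _).mp (hs r hr)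

end Comp

end Fermat.Agent.AVH
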