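import Mathlib

/-!
# The ring `E ⊗[k] E` for a Galois extension `E/k(u)`

`R = E ⊗[k] E`, `λ = u ⊗ 1 - 1 ⊗ u`, `φ_s : x ⊗ y ↦ x * s y`.  The ideal `(λ)` is the intersection
of the kernels of the `φ_s`, `s ∈ Gal(E/k(u))`.
-/

set_option autoImplicit false

noncomputable section

open scoped TensorProduct IntermediateField

namespace Fermat.Agent.AVH

variable {k E : Type*} [Field k] [Field E] [Algebra k E]

variable (k) in
/-- `u ⊗ 1 - 1 ⊗ u` -/
def lam (u : E) : E ⊗[k] E := u ⊗ₜ 1 - 1 ⊗ₜ u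

variable {u : E}

/-- `x ⊗ y ↦ x * s y` -/
def phi (s : E ≃ₐ[k⟮u⟯] E) : E ⊗[k] E →ₐ[k] E :=
  Algebra.TensorProduct.productMap (AlgHom.id k E) ((s.restrictScalars k : E ≃ₐ[k] E) : E →ₐ[k] E)

theorem phi_tmul (s : E ≃ₐ[k⟮u⟯] E) (x y : E) : phi s (x ⊗ₜ y) = x * s y := by
  simp [phi]

theorem apply_u (s : E ≃ₐ[k⟮u⟯] E) : s u = u :=
  s.commutes ⟨u, IntermediateField.mem_adjoin_simple_self k u⟩

theorem phi_lam (s : E ≃ₐ[k⟮u⟯] E) : phi s (lam k u) = 0 := by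
  rw [lam, map_sub, phi_tmul, phi_tmul, apply_u, map_one, mul_one, one_mul, sub_self]

theorem tmul_sub_mem (c : E) (hc : c ∈ k⟮u⟯) :
    c ⊗ₜ[k] (1 : E) - (1 : E) ⊗ₜ[k] c ∈ Ideal.span {lam k u} := by
  induction hc using IntermediateField.adjoin_induction with
  | mem x hx =>
    rw [Set.mem_singleton_iff] at hx
    subst hx
    exact Ideal.subset_span rfl
  | algebraMap x =>
    have h1 : (algebraMap k E x) ⊗ₜ[k] (1 : E) = (1 : E) ⊗ₜ[k] (algebraMap k E x) := by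
      rw [Algebra.algebraMap_eq_smul_one, TensorProduct.smul_tmul]
    rw [h1, sub_self]
    exact Ideal.zero_mem _
  | add x y _ _ hx hy =>
    have h1 : (x + y) ⊗ₜ[k] (1 : E) - (1 : E) ⊗ₜ[k] (x + y) =
        (x ⊗ₜ[k] (1 : E) - (1 : E) ⊗ₜ[k] x) + (y ⊗ₜ[k] (1 : E) - (1 : E) ⊗ₜ[k] y) := by
      rw [TensorProduct.add_tmul, TensorProduct.tmul_add]; ring
    rw [h1]
    exact Ideal.add_mem _ hx hy
  | inv x _ hx =>
    rcases eq_or_ne x 0 with rfl | hx0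
    · simp
    · have h1 : x⁻¹ ⊗ₜ[k] (1 : E) - (1 : E) ⊗ₜ[k] x⁻¹ =
          -(x⁻¹ ⊗ₜ[k] x⁻¹) * (x ⊗ₜ[k] (1 : E) - (1 : E) ⊗ₜ[k] x) := by
        rw [mul_sub, neg_mul, neg_mul, Algebra.TensorProduct.tmul_mul_tmul,
          Algebra.TensorProduct.tmul_mul_tmul, inv_mul_cancel₀ hx0, mul_one]
        ring
      rw [h1]
      exact Ideal.mul_mem_left _ _ hx
  | mul x y _ _ hx hy =>
    have h1 : (x * y) ⊗ₜ[k] (1 : E) - (1 : E) ⊗ₜ[k] (x * y) =
        (x ⊗ₜ[k] (1 : E)) * (y ⊗ₜ[k] (1 : E) - (1 : E) ⊗ₜ[k] y) +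
          ((1 : E) ⊗ₜ[k] y) * (x ⊗ₜ[k] (1 : E) - (1 : E) ⊗ₜ[k] x) := by
      rw [mul_sub, mul_sub, Algebra.TensorProduct.tmul_mul_tmul,
        Algebra.TensorProduct.tmul_mul_tmul, Algebra.TensorProduct.tmul_mul_tmul,
        Algebra.TensorProduct.tmul_mul_tmul]
      simp only [mul_one, one_mul, mul_comm y x]
      abel
    rw [h1]
    exact Ideal.add_mem _ (Ideal.mul_mem_left _ _ hy) (Ideal.mul_mem_left _ _ hx)

theorem exists_normal_form {ι : Type*} [Fintype ι] (e : Module.Basis ι k⟮u⟯ E) (z : E ⊗[k] E) :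
    ∃ x : ι → E, z - ∑ i, x i ⊗ₜ[k] e i ∈ Ideal.span {lam k u} := by
  induction z using TensorProduct.induction_on with
  | zero => exact ⟨0, by simp⟩
  | add a b ha hb =>
    obtain ⟨x, hx⟩ := ha
    obtain ⟨y, hy⟩ := hb
    refine ⟨x + y, ?_⟩
    have h1 : a + b - ∑ i, (x + y) i ⊗ₜ[k] e i =
        (a - ∑ i, x i ⊗ₜ[k] e i) + (b - ∑ i, y i ⊗ₜ[k] e i) := by
      simp only [Pi.add_apply, TensorProduct.add_tmul, Finset.sum_add_distrib]
      ring
    rw [h1]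
    exact Ideal.add_mem _ hx hy
  | tmul a b =>
    refine ⟨fun i => a * (e.repr b i : E), ?_⟩
    have hb : b = ∑ i, (e.repr b i : E) * e i := by
      conv_lhs => rw [← e.sum_repr b]
      exact Finset.sum_congr rfl fun i _ => by rw [Algebra.smul_def]; rfl
    have h1 : a ⊗ₜ[k] b - ∑ i, (a * (e.repr b i : E)) ⊗ₜ[k] e i =
        ∑ i, -(a ⊗ₜ[k] e i) * ((e.repr b i : E) ⊗ₜ[k] (1 : E) - (1 : E) ⊗ₜ[k] (e.repr b i : E)) := by
      conv_lhs => rw [hb]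
      rw [TensorProduct.tmul_sum, ← Finset.sum_sub_distrib]
      refine Finset.sum_congr rfl fun i _ => ?_
      rw [mul_sub, neg_mul, neg_mul, Algebra.TensorProduct.tmul_mul_tmul,
        Algebra.TensorProduct.tmul_mul_tmul, mul_one, mul_one, mul_comm (e i)]
      have h2 : e.repr (∑ i, (e.repr b i : E) * e i) i = e.repr b i := by rw [← hb]
      rw [h2]
      ring
    rw [h1]
    exact Ideal.sum_mem _ fun i _ => Ideal.mul_mem_left _ _ (tmul_sub_mem _ (e.repr b i).2)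

/-- **The intersection of the kernels is `(λ)`.** -/
theorem mem_span_lam [FiniteDimensional k⟮u⟯ E] [IsGalois k⟮u⟯ E] {z : E ⊗[k] E}
    (hz : ∀ s : E ≃ₐ[k⟮u⟯] E, phi s z = 0) : z ∈ Ideal.span {lam k u} := by
  classical
  let e := Module.finBasis k⟮u⟯ E
  obtain ⟨x, hx⟩ := exists_normal_form e z
  have hI : ∀ s : E ≃ₐ[k⟮u⟯] E, ∀ w ∈ Ideal.span {lam k u}, phi s w = 0 := by
    intro s w hw
    obtain ⟨c, rfl⟩ := Ideal.mem_span_singleton'.mp hw
    rw [map_mul, phi_lam, mul_zero]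
  have h1 : ∀ s : E ≃ₐ[k⟮u⟯] E, ∑ i, x i * s (e i) = 0 := by
    intro s
    have h2 := hI s _ hx
    rw [map_sub, hz s, zero_sub, neg_eq_zero, map_sum] at h2
    rw [← h2]
    exact Finset.sum_congr rfl fun i _ => (phi_tmul s _ _).symm
  let d := (Algebra.traceForm k⟮u⟯ E).dualBasis (traceForm_nondegenerate k⟮u⟯ E) e
  have h3 : ∀ j, x j = 0 := by
    intro j
    have h4 : ∑ s : E ≃ₐ[k⟮u⟯] E, s (d j) * ∑ i, x i * s (e i) = 0 := by
      refine Finset.sum_eq_zero fun s _ => ?_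
      rw [h1 s, mul_zero]
    have h5 : ∑ s : E ≃ₐ[k⟮u⟯] E, s (d j) * ∑ i, x i * s (e i) =
        ∑ i, x i * ∑ s : E ≃ₐ[k⟮u⟯] E, s (d j * e i) := by
      simp only [Finset.mul_sum]
      rw [Finset.sum_comm]
      refine Finset.sum_congr rfl fun i _ => Finset.sum_congr rfl fun s _ => ?_
      rw [map_mul]; ring
    have h6 : ∀ i, ∑ s : E ≃ₐ[k⟮u⟯] E, s (d j * e i) = if i = j then 1 else 0 := by
      intro i
      rw [← trace_eq_sum_automorphisms, ← Algebra.traceForm_apply]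
      have h7 := LinearMap.BilinForm.apply_dualBasis_left (B := Algebra.traceForm k⟮u⟯ E)
        (traceForm_nondegenerate k⟮u⟯ E) e j i
      change algebraMap _ _ ((Algebra.traceForm k⟮u⟯ E) (d j) (e i)) = _
      rw [h7]
      split_ifs <;> simp
    rw [h5] at h4
    simp only [h6, mul_ite, mul_one, mul_zero, Finset.sum_ite_eq', Finset.mem_univ, if_true] at h4
    exact h4
  have h8 : ∑ i, x i ⊗ₜ[k] e i = 0 := Finset.sum_eq_zero fun i _ => by
    rw [h3, TensorProduct.zero_tmul]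
  rwa [h8, sub_zero] at hx

end Fermat.Agent.AVH
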