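import Fermat.Agent.AVH.Ring

/-!
# The valuation ring of a locally principal maximal ideal of a Noetherian domain
-/

set_option autoImplicit false

noncomputable section

namespace Fermat.Agent.AVH

/-- A Noetherian domain `R` with fraction field `M`, a surjection `φ : R → T` onto a field whose
kernel is locally generated by `lam ≠ 0`. -/
structure LocData (R M T : Type*) [CommRing R] [Field M] [Field T] where
  /-- the map to the fraction field -/
  μ : R →+* M
  /-- the residue map -/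
  φ : R →+* T
  inj : Function.Injective μ
  gen : ∀ m : M, ∃ z w : R, w ≠ 0 ∧ m * μ w = μ z
  surj : Function.Surjective φ
  /-- the uniformizer -/
  lam : R
  lam_ne : lam ≠ 0
  lam_mem : φ lam = 0
  prin : ∃ e, φ e ≠ 0 ∧ ∀ z, φ z = 0 → lam ∣ e * z

namespace LocData

variable {R M T : Type*} [CommRing R] [Field M] [Field T] (D : LocData R M T)

include D in
theorem mul_cancel {a b c : R} (hc : c ≠ 0) (h : a * c = b * c) : a = b := by
  have h1 : D.μ c ≠ 0 := by
    rw [Ne, map_eq_zero_iff _ D.inj]; exact hc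
  apply D.inj
  apply mul_right_cancel₀ h1
  rw [← map_mul, ← map_mul, h]

theorem mu_ne {a : R} (h : D.φ a ≠ 0) : D.μ a ≠ 0 := by
  rw [Ne, map_eq_zero_iff _ D.inj]
  rintro rfl
  exact h (map_zero _)

theorem mul_ne {a b : R} (ha : D.φ a ≠ 0) (hb : D.φ b ≠ 0) : D.φ (a * b) ≠ 0 := by
  rw [map_mul]; exact mul_ne_zero ha hb

/-- auxiliary ideal -/
def J (z : R) (n : ℕ) : Ideal R where
  carrier := {x | ∃ w, D.φ w ≠ 0 ∧ z ∣ x * w * D.lam ^ n}
  zero_mem' := ⟨1, by simp, by simp⟩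
  add_mem' := by
    rintro x y ⟨w, hw, a, ha⟩ ⟨w', hw', b, hb⟩
    refine ⟨w * w', D.mul_ne hw hw', a * w' + b * w, ?_⟩
    linear_combination w' * ha + w * hb
  smul_mem' := by
    rintro c x ⟨w, hw, a, ha⟩
    refine ⟨w, hw, c * a, ?_⟩
    rw [smul_eq_mul]
    linear_combination c * ha

theorem key [IsNoetherianRing R] {z : R} (hz : z ≠ 0) :
    ∃ (n : ℕ) (w w' : R), D.φ w ≠ 0 ∧ D.φ w' ≠ 0 ∧ z * w = D.lam ^ n * w' := by
  by_contra hcon
  push Not at hcon
  obtain ⟨e, he, hprin⟩ := D.prin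
  have h1 : ∀ n : ℕ, ∃ w c, D.φ w ≠ 0 ∧ z * w = D.lam ^ n * c := by
    intro n
    induction n with
    | zero => exact ⟨1, z, by simp, by simp⟩
    | succ n ih =>
      obtain ⟨w, c, hw, h⟩ := ih
      have hc : D.φ c = 0 := by
        by_contra hc
        exact hcon n w c hw hc h
      obtain ⟨d, hd⟩ := hprin c hc
      refine ⟨w * e, d, D.mul_ne hw he, ?_⟩
      linear_combination e * h + D.lam ^ n * hd
  have hmono : Monotone (D.J z) := by
    refine monotone_nat_of_le_succ fun n x => ?_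
    rintro ⟨w, hw, a, ha⟩
    refine ⟨w, hw, a * D.lam, ?_⟩
    linear_combination D.lam * ha
  obtain ⟨n, hn⟩ := (monotone_stabilizes_iff_noetherian.mpr inferInstance)
    (⟨D.J z, hmono⟩ : ℕ →o Ideal R)
  obtain ⟨w, c, hw, h⟩ := h1 (n + 1)
  have h2 : c ∈ D.J z (n + 1) := ⟨1, by simp, w, by rw [h]; ring⟩
  have h3 : c ∈ D.J z n := by
    have := hn (n + 1) (Nat.le_succ n)
    change D.J z n = D.J z (n + 1) at this
    rwa [this]
  obtain ⟨v, hv, y, hy⟩ := h3
  have h4 : w * v = y * D.lam := by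
    apply D.mul_cancel hz
    linear_combination v * h + D.lam * hy
  have h5 := D.mul_ne hw hv
  rw [h4, map_mul, D.lam_mem, mul_zero] at h5
  exact h5 rfl

theorem lam0 : D.μ D.lam ≠ 0 := by
  rw [Ne, map_eq_zero_iff _ D.inj]; exact D.lam_ne

theorem exists_zpow [IsNoetherianRing R] {m : M} (hm : m ≠ 0) :
    ∃ (n : ℤ) (a b : R), D.φ a ≠ 0 ∧ D.φ b ≠ 0 ∧ m * D.μ b = D.μ D.lam ^ n * D.μ a := by
  obtain ⟨z, w, hw, h⟩ := D.gen m
  have hz : z ≠ 0 := by
    rintro rfl
    rw [map_zero, mul_eq_zero, map_eq_zero_iff _ D.inj] at h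
    exact h.elim hm hw
  obtain ⟨n, a, a', ha, ha', h1⟩ := D.key hz
  obtain ⟨n', b, b', hb, hb', h2⟩ := D.key hw
  have h1' := congrArg D.μ h1
  have h2' := congrArg D.μ h2
  simp only [map_mul, map_pow] at h1' h2'
  refine ⟨n - n', a' * b, b' * a, D.mul_ne ha' hb, D.mul_ne hb' ha, ?_⟩
  rw [zpow_sub₀ D.lam0, zpow_natCast, zpow_natCast]
  have h3 := D.lam0
  have h4 := pow_ne_zero n' h3
  rw [div_mul_eq_mul_div, eq_div_iff h4]
  simp only [map_mul]
  linear_combination (-(m * D.μ a)) * h2' + D.μ b * h1' + D.μ b * D.μ a * h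

/-- the valuation ring -/
def V [IsNoetherianRing R] : ValuationSubring M where
  carrier := {m | ∃ z w : R, D.φ w ≠ 0 ∧ m * D.μ w = D.μ z}
  mul_mem' := by
    rintro x y ⟨z, w, hw, h⟩ ⟨z', w', hw', h'⟩
    refine ⟨z * z', w * w', D.mul_ne hw hw', ?_⟩
    simp only [map_mul]
    linear_combination (y * D.μ w') * h + D.μ z * h'
  one_mem' := ⟨1, 1, by simp, by simp⟩
  add_mem' := by
    rintro x y ⟨z, w, hw, h⟩ ⟨z', w', hw', h'⟩
    refine ⟨z * w' + z' * w, w * w', D.mul_ne hw hw', ?_⟩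
    simp only [map_mul, map_add]
    linear_combination (D.μ w') * h + D.μ w * h'
  zero_mem' := ⟨0, 1, by simp, by simp⟩
  neg_mem' := by
    rintro x ⟨z, w, hw, h⟩
    refine ⟨-z, w, hw, ?_⟩
    rw [map_neg]
    linear_combination -h
  mem_or_inv_mem' := by
    intro m
    rcases eq_or_ne m 0 with rfl | hm
    · left; exact ⟨0, 1, by simp, by simp⟩
    · obtain ⟨n, a, b, ha, hb, h⟩ := D.exists_zpow hm
      rcases le_total 0 n with hn | hn
      · left
        lift n to ℕ using hn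
        refine ⟨D.lam ^ n * a, b, hb, ?_⟩
        rw [h, map_mul, map_pow, zpow_natCast]
      · right
        obtain ⟨j, rfl⟩ := Int.exists_eq_neg_ofNat hn
        refine ⟨D.lam ^ j * b, a, ha, ?_⟩
        rw [zpow_neg, zpow_natCast] at h
        have h4 := pow_ne_zero j D.lam0
        have h5 : D.μ D.lam ^ j * (m * D.μ b) = D.μ a := by
          rw [h, ← mul_assoc, mul_inv_cancel₀ h4, one_mul]
        rw [map_mul, map_pow, ← h5]
        field_simp

variable [IsNoetherianRing R]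

theorem mem_V {m : M} : m ∈ D.V ↔ ∃ z w : R, D.φ w ≠ 0 ∧ m * D.μ w = D.μ z := Iff.rfl

theorem mu_mem (z : R) : D.μ z ∈ D.V := ⟨z, 1, by simp, by simp⟩

omit [IsNoetherianRing R] in
theorem uniq {m : M} {z w z' w' : R} (hw : D.φ w ≠ 0) (h : m * D.μ w = D.μ z)
    (hw' : D.φ w' ≠ 0) (h' : m * D.μ w' = D.μ z') : D.φ z / D.φ w = D.φ z' / D.φ w' := by
  rw [div_eq_div_iff hw hw', ← map_mul, ← map_mul]
  congr 1
  apply D.inj
  simp only [map_mul]
  linear_combination (-D.μ w') * h + (D.μ w) * h'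

/-- numerator -/
def num (m : D.V) : R := m.2.choose

/-- denominator -/
def den (m : D.V) : R := m.2.choose_spec.choose

theorem den_ne (m : D.V) : D.φ (D.den m) ≠ 0 := m.2.choose_spec.choose_spec.1

theorem mul_den (m : D.V) : (m : M) * D.μ (D.den m) = D.μ (D.num m) :=
  m.2.choose_spec.choose_spec.2

theorem quot_eq (m : D.V) {z w : R} (hw : D.φ w ≠ 0) (h : (m : M) * D.μ w = D.μ z) :
    D.φ (D.num m) / D.φ (D.den m) = D.φ z / D.φ w :=
  D.uniq (D.den_ne m) (D.mul_den m) hw h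

/-- the residue map -/
def res : D.V →+* T where
  toFun m := D.φ (D.num m) / D.φ (D.den m)
  map_one' := by
    rw [D.quot_eq 1 (w := 1) (z := 1) (by simp) (by simp)]
    simp
  map_zero' := by
    rw [D.quot_eq 0 (w := 1) (z := 0) (by simp) (by simp)]
    simp
  map_mul' := by
    intro x y
    rw [D.quot_eq (x * y) (w := D.den x * D.den y)
      (z := D.num x * D.num y) (D.mul_ne (D.den_ne x) (D.den_ne y)) ?_]
    · rw [map_mul, map_mul, mul_div_mul_comm]
    · rw [map_mul, map_mul, ← D.mul_den x, ← D.mul_den y]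
      show (x : M) * y * _ = _
      ring
  map_add' := by
    intro x y
    rw [D.quot_eq (x + y) (w := D.den x * D.den y)
      (z := D.num x * D.den y + D.den x * D.num y) (D.mul_ne (D.den_ne x) (D.den_ne y)) ?_]
    · rw [map_mul, map_add, map_mul, map_mul, div_add_div _ _ (D.den_ne x) (D.den_ne y)]
    · rw [map_mul, map_add, map_mul, map_mul, ← D.mul_den x, ← D.mul_den y]
      show ((x : M) + y) * _ = _
      ring

theorem res_eq {m : D.V} {z w : R} (hw : D.φ w ≠ 0) (h : (m : M) * D.μ w = D.μ z) :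
    D.res m = D.φ z / D.φ w :=
  D.quot_eq m hw h

theorem res_mu (z : R) : D.res ⟨D.μ z, D.mu_mem z⟩ = D.φ z := by
  rw [D.res_eq (w := 1) (z := z) (by simp) (by simp)]
  simp

theorem res_surj : Function.Surjective D.res := fun t => by
  obtain ⟨z, rfl⟩ := D.surj t
  exact ⟨_, D.res_mu z⟩

theorem res_ker (x : D.V) : D.res x = 0 ↔ ¬ IsUnit x := by
  constructor
  · intro h hu
    exact (hu.map D.res).ne_zero h
  · intro h
    by_contra h0
    apply h
    obtain ⟨z, w, hw, hx⟩ := x.2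
    rw [D.res_eq hw hx] at h0
    have hz : D.φ z ≠ 0 := fun h1 => h0 (by rw [h1, zero_div])
    have hx0 : (x : M) ≠ 0 := by
      intro h1
      rw [h1, zero_mul] at hx
      exact D.mu_ne hz hx.symm
    refine isUnit_iff_exists_inv.mpr ⟨⟨(x : M)⁻¹, w, z, hz, ?_⟩, Subtype.ext (mul_inv_cancel₀ hx0)⟩
    rw [← hx]
    field_simp

theorem isUnit_mu {z : R} (hz : D.φ z ≠ 0) : IsUnit (⟨D.μ z, D.mu_mem z⟩ : D.V) := by
  by_contra h
  rw [← D.res_ker, D.res_mu] at h
  exact hz h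

/-- the uniformizer in the valuation ring -/
def unif : D.V := ⟨D.μ D.lam, D.mu_mem _⟩

theorem exists_pow (x : D.V) (hx : x ≠ 0) : ∃ n : ℕ, Associated (D.unif ^ n) x := by
  have hx0 : (x : M) ≠ 0 := fun h => hx (Subtype.ext h)
  obtain ⟨n, a, b, ha, hb, h⟩ := D.exists_zpow hx0
  obtain ⟨ua, hua⟩ := D.isUnit_mu ha
  obtain ⟨ub, hub⟩ := D.isUnit_mu hb
  rcases le_or_gt 0 n with hn | hn
  · lift n to ℕ using hn
    refine ⟨n, ua * ub⁻¹, ?_⟩
    have h1 : x * (ub : D.V) = D.unif ^ n * ua := by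
      rw [hua, hub]
      apply Subtype.ext
      rw [zpow_natCast] at h
      exact h
    rw [Units.val_mul, ← mul_assoc, ← h1, mul_assoc, ← Units.val_mul, mul_inv_cancel,
      Units.val_one, mul_one]
  · exfalso
    obtain ⟨j, hj⟩ : ∃ j : ℕ, n = -((j + 1 : ℕ) : ℤ) := ⟨(-n - 1).toNat, by omega⟩
    rw [hj, zpow_neg, zpow_natCast] at h
    have h4 := pow_ne_zero (j + 1) D.lam0
    have h1 : D.unif ^ (j + 1) * (x * (ub : D.V)) = ua := by
      rw [hua, hub]
      apply Subtype.ext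
      show D.μ D.lam ^ (j + 1) * ((x : M) * D.μ b) = D.μ a
      rw [h, ← mul_assoc, mul_inv_cancel₀ h4, one_mul]
    have h2 := congrArg D.res h1
    rw [map_mul, map_pow, unif, D.res_mu, D.lam_mem, zero_pow (Nat.succ_ne_zero j), zero_mul] at h2
    exact (ua.isUnit.map D.res).ne_zero h2.symm

theorem unif_not_isUnit : ¬ IsUnit D.unif := by
  rw [← D.res_ker, unif, D.res_mu, D.lam_mem]

theorem unif_ne : D.unif ≠ 0 := fun h => D.lam0 (congrArg Subtype.val h)

theorem irreducible_unif : Irreducible D.unif := by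
  refine ⟨D.unif_not_isUnit, fun a b hab => ?_⟩
  by_contra hcon
  push Not at hcon
  have ha0 : a ≠ 0 := fun h => D.unif_ne (by rw [hab, h, zero_mul])
  have hb0 : b ≠ 0 := fun h => D.unif_ne (by rw [hab, h, mul_zero])
  obtain ⟨n, hn⟩ := D.exists_pow a ha0
  obtain ⟨m, hm⟩ := D.exists_pow b hb0
  have hn0 : n ≠ 0 := by
    rintro rfl
    rw [pow_zero] at hn
    exact hcon.1 (hn.isUnit isUnit_one)
  have hm0 : m ≠ 0 := by
    rintro rfl
    rw [pow_zero] at hm
    exact hcon.2 (hm.isUnit isUnit_one)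
  obtain ⟨n, rfl⟩ := Nat.exists_eq_succ_of_ne_zero hn0
  obtain ⟨m, rfl⟩ := Nat.exists_eq_succ_of_ne_zero hm0
  have h1 := hn.mul_mul hm
  rw [← hab] at h1
  obtain ⟨u, hu⟩ := h1
  have h2 : D.unif * (D.unif ^ n * D.unif ^ m * D.unif * u) = D.unif * 1 := by
    rw [mul_one]
    conv_rhs => rw [← hu]
    rw [Nat.succ_eq_add_one, Nat.succ_eq_add_one]
    ring
  have h3 := mul_left_cancel₀ D.unif_ne h2
  apply D.unif_not_isUnit
  refine isUnit_iff_exists_inv.mpr ⟨D.unif ^ n * D.unif ^ m * u, ?_⟩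
  rw [← h3]
  ring

instance isDVR : IsDiscreteValuationRing D.V :=
  IsDiscreteValuationRing.ofHasUnitMulPowIrreducibleFactorization
    ⟨D.unif, D.irreducible_unif, fun {x} hx => D.exists_pow x hx⟩

theorem maximalIdeal_eq : IsLocalRing.maximalIdeal D.V = Ideal.span {D.unif} :=
  D.irreducible_unif.maximalIdeal_eq

/-- **Classification**: a valuation ring containing `R`, in which the kernel of `φ` consists of
nonunits, is equal to `V`. -/
theorem eq_V {U : ValuationSubring M} (hU : ∀ r, D.μ r ∈ U)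
    (hker : ∀ r, D.φ r = 0 → ¬ IsUnit (⟨D.μ r, hU r⟩ : U)) : U = D.V := by
  have h1 : ∀ r, D.φ r ≠ 0 → IsUnit (⟨D.μ r, hU r⟩ : U) := by
    intro r hr
    obtain ⟨s, hs⟩ := D.surj (D.φ r)⁻¹
    have h2 : D.φ (1 - r * s) = 0 := by
      rw [map_sub, map_one, map_mul, hs, mul_inv_cancel₀ hr, sub_self]
    have h3 := hker _ h2
    have h4 : IsUnit ((⟨D.μ r, hU r⟩ : U) * ⟨D.μ s, hU s⟩) := by
      have h5 := IsLocalRing.isUnit_or_isUnit_one_sub_self ((⟨D.μ r, hU r⟩ : U) * ⟨D.μ s, hU s⟩)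
      refine h5.resolve_right ?_
      have h6 : 1 - (⟨D.μ r, hU r⟩ : U) * ⟨D.μ s, hU s⟩ = ⟨D.μ (1 - r * s), hU _⟩ := by
        apply Subtype.ext
        show 1 - D.μ r * D.μ s = D.μ (1 - r * s)
        rw [map_sub, map_one, map_mul]
      rw [h6]
      exact h3
    exact isUnit_of_mul_isUnit_left h4
  have hle : D.V ≤ U := by
    rintro m ⟨z, w, hw, h⟩
    obtain ⟨⟨v, hv⟩, hv'⟩ := (h1 w hw).exists_right_inv
    have h2 : D.μ w * v = 1 := congrArg Subtype.val hv'
    have h3 : m = D.μ z * v := by rw [← h, mul_assoc, h2, mul_one]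
    rw [h3]
    exact U.mul_mem _ _ (hU z) hv
  refine le_antisymm ?_ hle
  intro m hm
  rcases eq_or_ne m 0 with rfl | hm0
  · exact zero_mem _
  obtain ⟨n, a, b, ha, hb, h⟩ := D.exists_zpow hm0
  rcases le_or_gt 0 n with hn | hn
  · lift n to ℕ using hn
    refine ⟨D.lam ^ n * a, b, hb, ?_⟩
    rw [h, map_mul, map_pow, zpow_natCast]
  · exfalso
    obtain ⟨j, hj⟩ : ∃ j : ℕ, n = -((j + 1 : ℕ) : ℤ) := ⟨(-n - 1).toNat, by omega⟩
    rw [hj, zpow_neg, zpow_natCast] at h
    have h4 := pow_ne_zero (j + 1) D.lam0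
    apply hker D.lam D.lam_mem
    have h5 : IsUnit ((⟨D.μ D.lam, hU _⟩ : U) ^ (j + 1) * (⟨m, hm⟩ * ⟨D.μ b, hU b⟩)) := by
      have h6 : (⟨D.μ D.lam, hU _⟩ : U) ^ (j + 1) * (⟨m, hm⟩ * ⟨D.μ b, hU b⟩) =
          ⟨D.μ a, hU a⟩ := by
        apply Subtype.ext
        show D.μ D.lam ^ (j + 1) * (m * D.μ b) = D.μ a
        rw [h, ← mul_assoc, mul_inv_cancel₀ h4, one_mul]
      rw [h6]
      exact h1 a ha
    exact isUnit_pow_succ_iff.mp (isUnit_of_mul_isUnit_left h5)

end LocData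

end Fermat.Agent.AVH
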